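import Fermat.Agent.S37.Mod.Inst
import Fermat.Agent.Crux.GM.Core
import Fermat.Agent.Crux.GM.CoordJ

/-!
# S37 / Mod : a good coordinate (`GM.GoodCoord`) is a pre-chart of the Gauss valuation
-/

set_option autoImplicit false

open AlgebraicCurve ModularCurve
open scoped IntermediateField

namespace Fermat.Agent.S37.Mod

open Fermat.Agent.ES (Qb FF)
open Fermat.Agent.S26 (FF1)
open Fermat.Agent.Crux (GM.GoodCoord GM.castS)

noncomputable section

variable {M ℓ : ℕ} [NeZero M] {xh : LaurentSeries ℤ} {β : ℤ} {n : ℕ}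

theorem io_castS (A : ValuationSubring Qb) (z : LaurentSeries ℤ) :
    io A (GM.castS A z) = GM.castS Qb z :=
  Fermat.Agent.Crux.GM.coeffMap_castS _ z

theorem rd_castS (A : ValuationSubring Qb) (z : LaurentSeries ℤ) :
    rd A (GM.castS A z) = GM.castS (kA A) z :=
  Fermat.Agent.Crux.GM.coeffMap_castS _ z

/-- an integral series which lies in the function field over `ℚ̄` (`S17.IsFFAux.laurentBaseChange_eq_fullC`). -/
theorem isI_castS (A : ValuationSubring Qb) {z : LaurentSeries ℤ}
    (hz : GM.castS Qb z ∈ modularFunctionFieldFullC Qb M) : IsI M A (GM.castS A z) := by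
  have h : modularFunctionFieldBar M = modularFunctionFieldFullC Qb M :=
    Fermat.Agent.S17.IsFFAux.laurentBaseChange_eq_fullC _ M
  rw [IsI, io_castS, h]
  exact hz

/-- the element of `FF M` defined by an integral series. -/
def zQ (z : LaurentSeries ℤ) (hz : GM.castS Qb z ∈ modularFunctionFieldFullC Qb M) : FF M :=
  ⟨GM.castS Qb z, by
    have h : modularFunctionFieldBar M = modularFunctionFieldFullC Qb M :=
      Fermat.Agent.S17.IsFFAux.laurentBaseChange_eq_fullC _ M
    rw [h]; exact hz⟩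

/-- its reduction. -/
def zk (A : ValuationSubring Qb) (z : LaurentSeries ℤ)
    (hz : GM.castS Qb z ∈ modularFunctionFieldFullC Qb M) : resF M A :=
  ⟨GM.castS (kA A) z, ⟨GM.castS Qb z, by
    have h := RedRel.of_isI (isI_castS A hz)
    rwa [io_castS, rd_castS] at h⟩⟩

theorem red_zQ (A : ValuationSubring Qb) (z : LaurentSeries ℤ)
    (hz : GM.castS Qb z ∈ modularFunctionFieldFullC Qb M) :
    (gaussVFF M A).Red (zQ z hz) (zk A z hz) := by
  rw [red_iff]
  have h := RedRel.of_isI (isI_castS A hz)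
  rwa [io_castS, rd_castS] at h

/-- the coordinate. -/
def xQ (hx : GM.GoodCoord M ℓ xh β n) : FF M := zQ xh (hx.mem Qb)

/-- the reduced coordinate. -/
def xk (hx : GM.GoodCoord M ℓ xh β n) (A : ValuationSubring Qb) : resF M A := zk A xh (hx.mem Qb)

@[simp] theorem coe_xQ (hx : GM.GoodCoord M ℓ xh β n) :
    (xQ hx : LaurentSeries Qb) = GM.castS Qb xh := rfl

@[simp] theorem coe_xk (hx : GM.GoodCoord M ℓ xh β n) (A : ValuationSubring Qb) :
    (xk hx A : LaurentSeries (kA A)) = GM.castS (kA A) xh := rfl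

theorem red_xQ (hx : GM.GoodCoord M ℓ xh β n) (A : ValuationSubring Qb) :
    (gaussVFF M A).Red (xQ hx) (xk hx A) := red_zQ A xh (hx.mem Qb)

/-- `GM.transcendental_of_order_neg`, `GM.order_castS`, `hx.order_neg`, `hx.leading`. -/
theorem transcendental_xk (hx : GM.GoodCoord M ℓ xh β n) (A : ValuationSubring Qb) :
    Transcendental (kA A) (xk hx A) := by
  have h1 : Transcendental (kA A) (GM.castS (kA A) xh) := by
    apply Fermat.Agent.Crux.GM.transcendental_of_order_neg
    rw [Fermat.Agent.Crux.GM.order_castS xh hx.leading]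
    exact hx.order_neg
  intro h2
  apply h1
  have h3 := h2.algebraMap (A := LaurentSeries (kA A))
  exact h3

/-- `hx.deg Qb` + `GM.relfinrank_bar_eq_finrank` + `S17.IsFFAux.laurentBaseChange_eq_fullC`. -/
theorem finrank_xQ (hx : GM.GoodCoord M ℓ xh β n) : Module.finrank Qb⟮xQ hx⟯ (FF M) = n := by
  have h : modularFunctionFieldBar M = modularFunctionFieldFullC Qb M :=
    Fermat.Agent.S17.IsFFAux.laurentBaseChange_eq_fullC _ M
  have h1 := Fermat.Agent.Crux.GM.relfinrank_bar_eq_finrank M (xQ hx)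
  have h2 := hx.deg Qb
  rw [← h] at h2
  exact h1.symm.trans h2

/-- `hx.basis (kA A)`: the reductions `zk A (b i)` are linearly independent over `k(x̄)` inside `resF M A` (a relation with coefficients in `k⟮xk⟯ ⊆ resF M A` maps to a relation in
`k((q))` with coefficients in `k⟮castS k xh⟯`); `resF M A / k(x̄)` is finite (`S26.finiteDimensional_adjoin_of_transcendental`), `LinearIndependent.fintype_card_le_finrank`. -/
theorem le_finrank_xk (hℓ : ℓ.Prime) (hx : GM.GoodCoord M ℓ xh β n) {A : ValuationSubring Qb}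
    (hA : A.LiesOverPrime ℓ) : n ≤ Module.finrank (kA A)⟮xk hx A⟯ (resF M A) := by
  have : CharP (kA A) ℓ := charP_kA hℓ hA
  obtain ⟨b, hbmem, hli⟩ := hx.basis (kA A)
  have hfd : FiniteDimensional (kA A)⟮xk hx A⟯ (resF M A) :=
    Fermat.Agent.S26.finiteDimensional_adjoin_of_transcendental (transcendental_xk hx A)
  have hmem : ∀ c : (kA A)⟮xk hx A⟯,
      (((c : resF M A) : LaurentSeries (kA A))) ∈ (kA A)⟮GM.castS (kA A) xh⟯ := by
    intro c
    have h1 : ((kA A)⟮xk hx A⟯).map (resF M A).val = (kA A)⟮GM.castS (kA A) xh⟯ := by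
      rw [IntermediateField.adjoin_map, Set.image_singleton]
      rfl
    rw [← h1]
    exact ⟨(c : resF M A), c.2, rfl⟩
  have hli' : LinearIndependent (kA A)⟮xk hx A⟯ (fun i => zk A (b i) (hbmem Qb i)) := by
    rw [Fintype.linearIndependent_iff]
    intro c hc i
    have h2 : ∑ j, (⟨_, hmem (c j)⟩ : (kA A)⟮GM.castS (kA A) xh⟯) • GM.castS (kA A) (b j) = 0 := by
      have h3 := congrArg (fun z : resF M A => (z : LaurentSeries (kA A))) hc
      simp only [IntermediateField.smul_def, smul_eq_mul] at h3 ⊢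
      rw [IntermediateField.coe_sum] at h3
      exact h3
    have h4 := (Fintype.linearIndependent_iff.1 hli) _ h2 i
    have h5 : ((c i : resF M A) : LaurentSeries (kA A)) = 0 := congrArg Subtype.val h4
    exact Subtype.ext (Subtype.ext h5)
  simpa using hli'.fintype_card_le_finrank

/-- **(M2)** -/
theorem isPreChart_goodCoord (hℓ : ℓ.Prime) (hx : GM.GoodCoord M ℓ xh β n) {A : ValuationSubring Qb}
    (hA : A.LiesOverPrime ℓ) : Red.IsPreChart (gaussVFF M A) (xQ hx) (xk hx A) :=
  ⟨red_xQ hx A, transcendental_xk hx A, by rw [finrank_xQ hx]; exact le_finrank_xk hℓ hx hA⟩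

end

end Fermat.Agent.S37.Mod
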