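import Fermat.Agent.S37.Mod.NormalD

/-!
# S37 / Mod : (N2) normality of the special fibre for the charts `x`, `x⁻¹` of a good coordinate

`normal_of_goodCoord` : the field `normal` of `Red.IsChart (gaussVFF M A) y yt` for `y = x` or `x⁻¹`,
`x` a good coordinate (`Crux.GM.GoodCoord`).
-/

set_option autoImplicit false

open AlgebraicCurve ModularCurve Polynomial

namespace Fermat.Agent.S37.Mod

open Fermat.Agent.ES (Qb FF)
open Fermat.Agent.S28 (evAt)
open Fermat.Agent.Crux.GM (GoodCoord castS)
open Fermat.Agent.Crux.GM.Normal (homog map_homog eval₂_mul_pow)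
open Fermat.Agent.S37.Red (IntK IntA evK evA IsChart IsPreChart)

noncomputable section

variable {M : ℕ} {A : ValuationSubring Qb}

theorem val_comp_evK (th : LaurentSeries ℤ) (yt : resF M A)
    (hyt : (yt : LaurentSeries (kA A)) = castS (kA A) th) :
    (algebraMap (resF M A) (LaurentSeries (kA A))).comp (evK (kA A) yt)
      = evAt (castS (kA A) th) := by
  refine Polynomial.ringHom_ext (fun a => ?_) ?_
  · rw [RingHom.comp_apply, Red.evK_apply, aeval_C, Fermat.Agent.S28.Build.evAt_C,
      ← IsScalarTower.algebraMap_apply, algebraMap_laurentSeries_eq_single]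
    rfl
  · rw [RingHom.comp_apply, Red.evK_apply, aeval_X, Fermat.Agent.S28.Build.evAt_X]
    exact hyt

theorem val_comp_evA (th : LaurentSeries ℤ) (y : FF M)
    (hy : (y : LaurentSeries Qb) = castS Qb th) :
    (algebraMap (FF M) (LaurentSeries Qb)).comp (evA A y)
      = (io A).comp (evAt (castS A th)) := by
  refine Polynomial.ringHom_ext (fun a => ?_) ?_
  · rw [RingHom.comp_apply, Red.evA_apply, map_C, aeval_C, RingHom.comp_apply,
      Fermat.Agent.S28.Build.evAt_C, ← IsScalarTower.algebraMap_apply,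
      algebraMap_laurentSeries_eq_single]
    exact (coeffMap_single _ _ _).symm
  · rw [RingHom.comp_apply, Red.evA_apply, map_X, aeval_X, RingHom.comp_apply,
      Fermat.Agent.S28.Build.evAt_X, Fermat.Agent.Crux.GM.coeffMap_castS]
    exact hy

/-- lifting monic polynomials along the residue map. -/
theorem exists_residue_poly (p : (kA A)[X][X]) (hp : p.Monic) :
    ∃ P : A[X][X], P.Monic ∧ P.map (mapRingHom (IsLocalRing.residue A)) = p := by
  have h1 : p ∈ lifts (mapRingHom (IsLocalRing.residue A)) := by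
    rw [lifts_iff_coeff_lifts]
    intro i
    exact Polynomial.map_surjective _ IsLocalRing.residue_surjective _
  obtain ⟨P, h0, -, hm⟩ := lifts_and_natDegree_eq_and_monic h1 hp
  exact ⟨P, hm, h0⟩

/-- **(N2)** for `y = x` or `x⁻¹`. -/
theorem normal_of_goodCoord [NeZero M] (ℓ : ℕ) (hℓ : ℓ.Prime) (xh : LaurentSeries ℤ)
    (β : ℤ) (n : ℕ) (hx : GoodCoord M ℓ xh β n) (hA : A.LiesOverPrime ℓ)
    (th : LaurentSeries ℤ) (hth : th = xh ∨ xh * th = 1)
    (y : FF M) (yt : resF M A) (hy : (y : LaurentSeries Qb) = castS Qb th)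
    (hyt : (yt : LaurentSeries (kA A)) = castS (kA A) th)
    (h : resF M A) (hh : IntK (kA A) yt h) :
    ∃ b : FF M, IntA A y b ∧ (gaussVFF M A).Red b h := by
  obtain ⟨p, hp, hpz⟩ := hh
  obtain ⟨f, a, b, ha, hb, hrb, -, hu⟩ := h.2
  obtain ⟨P, hP, rfl⟩ := exists_residue_poly p hp
  -- the equation in `k((q))`
  have e1 : eval₂ (evAt (castS (kA A) th)) (h : LaurentSeries (kA A))
      (P.map (mapRingHom (IsLocalRing.residue A))) = 0 := by
    have := congrArg (algebraMap (resF M A) (LaurentSeries (kA A))) hpz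
    rw [hom_eval₂, map_zero, val_comp_evK th yt hyt] at this
    exact this
  have e2 : rd A (homog (evAt (castS A th)) P a b) = 0 := by
    rw [coeffMap_homog _ _ _ hP, Fermat.Agent.Crux.GM.coeffMap_castS, ← eval₂_mul_pow _ _ hu, e1,
      zero_mul]
  obtain ⟨g', h', hg', hh', hne', hgh, Q, hQ, hQz⟩ :=
    normal_series M ℓ hℓ xh β n hx A hA th hth a b ha hb hrb P hP e2
  have hio : io A h' ≠ 0 := by
    intro h0
    have : h' = 0 := io_injective (by rw [h0, map_zero])
    exact hne' (by rw [this, map_zero])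
  have hmem : io A g' / io A h' ∈ modularFunctionFieldBar M := div_mem hg' hh'
  refine ⟨⟨_, hmem⟩, ⟨Q, hQ, ?_⟩, red_iff.2 ⟨g', h', hg', hh', hne', div_mul_cancel₀ _ hio, ?_⟩⟩
  · apply (algebraMap (FF M) (LaurentSeries Qb)).injective
    rw [hom_eval₂, map_zero, val_comp_evA th y hy]
    have e3 := eval₂_mul_pow ((io A).comp (evAt (castS A th))) Q (div_mul_cancel₀ (io A g') hio)
    rw [← map_homog, hQz, map_zero] at e3
    exact (mul_eq_zero.1 e3).resolve_right (pow_ne_zero _ hio)
  · rw [map_mul, map_mul] at hgh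
    apply mul_right_cancel₀ hrb
    calc (h : LaurentSeries (kA A)) * rd A h' * rd A b
        = ((h : LaurentSeries (kA A)) * rd A b) * rd A h' := by ring
      _ = rd A a * rd A h' := by rw [hu]
      _ = rd A g' * rd A b := hgh.symm

end

end Fermat.Agent.S37.Mod
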