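import Fermat.Agent.S37.Mod.PreChart
import Fermat.Agent.S37.Mod.NormalE

/-!
# S37 / Mod : (N2) normality of the special fibre in the charts `x`, `x⁻¹`  (owner: helper88)

By descent to `(K₀, A₀ = A ∩ K₀)` + `GM.H1_of_goodCoord` / `GM.H2_of_goodCoord` + `Crux.G.chartIntx`.
-/

set_option autoImplicit false

open AlgebraicCurve ModularCurve
open scoped IntermediateField

namespace Fermat.Agent.S37.Mod

open Fermat.Agent.ES (Qb FF)
open Fermat.Agent.S26 (FF1)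
open Fermat.Agent.Crux (GM.GoodCoord GM.castS)

noncomputable section

variable {M ℓ : ℕ} [NeZero M] {xh : LaurentSeries ℤ} {β : ℤ} {n : ℕ}

theorem normal_goodCoord (hℓ : ℓ.Prime) (hx : GM.GoodCoord M ℓ xh β n) {A : ValuationSubring Qb}
    (hA : A.LiesOverPrime ℓ) (h : resF M A) (hh : Red.IntK (kA A) (xk hx A) h) :
    ∃ b : FF M, Red.IntA A (xQ hx) b ∧ (gaussVFF M A).Red b h :=
  normal_of_goodCoord ℓ hℓ xh β n hx hA xh (Or.inl rfl) (xQ hx) (xk hx A) rfl rfl h hh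

theorem normal_goodCoord_inv (hℓ : ℓ.Prime) (hx : GM.GoodCoord M ℓ xh β n) {A : ValuationSubring Qb}
    (hA : A.LiesOverPrime ℓ) (h : resF M A) (hh : Red.IntK (kA A) (xk hx A)⁻¹ h) :
    ∃ b : FF M, Red.IntA A (xQ hx)⁻¹ b ∧ (gaussVFF M A).Red b h := by
  obtain ⟨th, hth⟩ : ∃ th : LaurentSeries ℤ, xh * th = 1 := by
    have hu : IsUnit xh := by
      rw [HahnSeries.isUnit_iff, hx.leading]
      exact isUnit_one
    exact hu.exists_right_inv
  have h1 : ∀ (R : Type) [Field R], GM.castS R th = (GM.castS R xh)⁻¹ := by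
    intro R _
    apply eq_inv_of_mul_eq_one_right
    rw [GM.castS, GM.castS, ← map_mul, hth, map_one]
  exact normal_of_goodCoord ℓ hℓ xh β n hx hA th (Or.inr hth) (xQ hx)⁻¹ (xk hx A)⁻¹
    (by rw [h1 Qb]; rfl) (by rw [h1 (kA A)]; rfl) h hh

/-- **(M3)** -/
theorem isChart_goodCoord (hℓ : ℓ.Prime) (hx : GM.GoodCoord M ℓ xh β n) {A : ValuationSubring Qb}
    (hA : A.LiesOverPrime ℓ) : Red.IsChart (gaussVFF M A) (xQ hx) (xk hx A) :=
  let pc := isPreChart_goodCoord hℓ hx hA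
  ⟨pc.red_y, pc.trans, pc.deg, normal_goodCoord hℓ hx hA⟩

theorem isChart_goodCoord_inv (hℓ : ℓ.Prime) (hx : GM.GoodCoord M ℓ xh β n)
    {A : ValuationSubring Qb} (hA : A.LiesOverPrime ℓ) :
    Red.IsChart (gaussVFF M A) (xQ hx)⁻¹ (xk hx A)⁻¹ :=
  let pc := (isPreChart_goodCoord hℓ hx hA).inv
  ⟨pc.red_y, pc.trans, pc.deg, normal_goodCoord_inv hℓ hx hA⟩

end

end Fermat.Agent.S37.Mod
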