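import Fermat.Agent.S37.Mod.VFF
import Fermat.Agent.S37.Red.FF1
import Fermat.Agent.S17.Curve.Base
import Fermat.Agent.S18.Inputs

/-!
# S37 / Mod : instances for `FF M` and `resF M A`
-/

set_option autoImplicit false

open AlgebraicCurve ModularCurve

namespace Fermat.Agent.S37.Mod

open Fermat.Agent.ES (Qb FF)
open Fermat.Agent.S26 (FF1)

noncomputable section

instance instIsAlgClosedKA (A : ValuationSubring Qb) : IsAlgClosed (kA A) :=
  Fermat.Agent.S18.isAlgClosed_residueField A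

/-- `S17.isFF_FL` (`IsFF Qb (FL Qb M)`, `FL Qb M = modularFunctionFieldBar M` by `rfl`) + `Red.ff1_of_finiteDimensional`. -/
instance instFF1FF (M : ℕ) [NeZero M] : FF1 Qb (FF M) := by
  obtain ⟨y, hy, hfin⟩ := (Fermat.Agent.S17.isFF_FL Qb M).exists_gen
  exact Red.ff1_of_finiteDimensional hy

/-- the residue characteristic (`ℓ ∈ m_A`; see `Crux/DescentAux.lean`, l. 97). -/
theorem charP_kA {A : ValuationSubring Qb} {ℓ : ℕ} (hℓ : ℓ.Prime) (hA : A.LiesOverPrime ℓ) :
    CharP (kA A) ℓ := by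
  have hV : IsLocalRing.residue A (ℓ : A) = 0 := by
    rw [IsLocalRing.residue_eq_zero_iff]
    have h1 : (ℓ : Qb) ∈ A.nonunits := hA
    rw [ValuationSubring.mem_nonunits_iff_exists_mem_maximalIdeal] at h1
    obtain ⟨ha, h2⟩ := h1
    have : (ℓ : A) = ⟨(ℓ : Qb), ha⟩ := Subtype.ext (by simp)
    rw [this]
    exact h2
  obtain ⟨p, hp⟩ := CharP.exists (kA A)
  have h1 : p ∣ ℓ := by
    rw [← CharP.cast_eq_zero_iff (kA A) p ℓ]
    rw [← hV, map_natCast]
  rcases (Nat.dvd_prime hℓ).mp h1 with h | h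
  · exact absurd h (CharP.char_ne_one (kA A) p)
  · rwa [h] at hp

variable (M : ℕ) [NeZero M] (A : ValuationSubring Qb)

/-- `j ∈ A((q))` is integral. -/
theorem isI_j : IsI M A (jqModC A) := by
  have h : modularFunctionFieldBar M = modularFunctionFieldFullC Qb M :=
    Fermat.Agent.S17.IsFFAux.laurentBaseChange_eq_fullC _ M
  rw [IsI, coeffMap_jqModC, h]
  exact jqModC_mem_full Qb M

/-- `Red.VFF.ff1_res` for `y = j = ⟨io A (jqModC A), _⟩`, `yt = ⟨rd A (jqModC A), _⟩`, `rd A (jqModC A) = jqModC k` (`coeffMap_jqModC`) is transcendental over `k`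
(`S28.transcendental_jqModC`, as in `S18.transcendental_jk`); `red_iff`, `RedRel.of_isI`. -/
instance instFF1ResF : FF1 (kA A) (resF M A) := by
  have hr : RedRel M A (io A (jqModC A)) (rd A (jqModC A)) := RedRel.of_isI (isI_j M A)
  have hred : (gaussVFF M A).Red (⟨io A (jqModC A), isI_j M A⟩ : FF M)
      (⟨rd A (jqModC A), ⟨_, hr⟩⟩ : resF M A) := red_iff.2 hr
  refine Red.VFF.ff1_res (gaussVFF M A) hred ?_
  intro h
  have h2 := (IntermediateField.isAlgebraic_iff).mp h
  have h3 : ((⟨rd A (jqModC A), ⟨_, hr⟩⟩ : resF M A) : LaurentSeries (kA A)) = jqModC (kA A) :=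
    coeffMap_jqModC _
  rw [h3] at h2
  exact Fermat.Agent.S28.transcendental_jqModC (kA A) h2

end

end Fermat.Agent.S37.Mod
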