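import Fermat.Agent.S37.Red.ClsDeg
import Fermat.Agent.ES.B.Pivot
import Fermat.Agent.Crux.DescentAux

/-!
# S37 / Mod : the Gauss valuation of the modular function field `FF M` over `(ℚ̄, A)`

`A` a valuation subring of `ℚ̄`, `k = kA A` its residue field, `io : A((q)) → ℚ̄((q))`, `rd : A((q)) → k((q))`.
* `IsI M A a`   : `a ∈ A((q))` lies in the function field (`io a ∈ FF M`);
* `RedRel M A f u` : `f = io a / io b`, `u = rd a / rd b` with `a b` integral, `rd b ≠ 0`;
* `gaussO M A`  : the Gauss valuation ring `{f | ∃ u, RedRel f u}` of `FF M`;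
* `resF M A`    : its residue field, realised inside `k((q))` as `{u | ∃ f, RedRel f u}`
  (NOT `modularFunctionFieldFullC k M`: no `q`-expansion principle is needed);
* `gaussRed`, `gaussVFF M A : Red.VFF A (residue A) (FF M) (resF M A)`.
Everything here is formal, except `mem_or_inv_mem` / `exists_scale`, which are `ES.exists_integral_fraction`.
-/

set_option autoImplicit false

open AlgebraicCurve ModularCurve

namespace Fermat.Agent.S37.Mod

open Fermat.Agent.ES (Qb FF)

noncomputable section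

/-- the residue field of `A`. -/
abbrev kA (A : ValuationSubring Qb) : Type := IsLocalRing.ResidueField A

/-- `A((q)) → ℚ̄((q))`. -/
abbrev io (A : ValuationSubring Qb) : LaurentSeries A →+* LaurentSeries Qb := coeffMap A.subtype

/-- `A((q)) → k((q))`. -/
abbrev rd (A : ValuationSubring Qb) : LaurentSeries A →+* LaurentSeries (kA A) :=
  coeffMap (IsLocalRing.residue A)

variable (M : ℕ) (A : ValuationSubring Qb)

/-- `a ∈ A((q))` lies in the function field. -/
def IsI (a : LaurentSeries A) : Prop := io A a ∈ modularFunctionFieldBar M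

variable {M A}

theorem io_injective : Function.Injective (io A) :=
  Fermat.Agent.Crux.coeffMap_injective _ Subtype.val_injective

theorem IsI.zero : IsI M A 0 := by
  rw [IsI, map_zero]
  exact zero_mem _

theorem IsI.one : IsI M A 1 := by
  rw [IsI, map_one]
  exact one_mem _

theorem IsI.add {a b : LaurentSeries A} (ha : IsI M A a) (hb : IsI M A b) : IsI M A (a + b) := by
  rw [IsI, map_add]
  exact add_mem ha hb

theorem IsI.neg {a : LaurentSeries A} (ha : IsI M A a) : IsI M A (-a) := by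
  rw [IsI, map_neg]
  exact neg_mem ha

theorem IsI.mul {a b : LaurentSeries A} (ha : IsI M A a) (hb : IsI M A b) : IsI M A (a * b) := by
  rw [IsI, map_mul]
  exact mul_mem ha hb

/-- constants -/
theorem IsI.const (c : A) : IsI M A (HahnSeries.single 0 c) := by
  rw [IsI, coeffMap_single, ← algebraMap_laurentSeries_eq_single]
  exact IntermediateField.algebraMap_mem _ _

theorem io_const (c : A) :
    io A (HahnSeries.single 0 c) = algebraMap Qb (LaurentSeries Qb) (c : Qb) := by
  rw [coeffMap_single, algebraMap_laurentSeries_eq_single]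
  rfl

theorem rd_const (c : A) :
    rd A (HahnSeries.single 0 c) = algebraMap (kA A) (LaurentSeries (kA A)) (IsLocalRing.residue A c) := by
  rw [coeffMap_single, algebraMap_laurentSeries_eq_single]

variable (M A)

/-- `f = io a / io b`, `u = rd a / rd b`. -/
def RedRel (f : LaurentSeries Qb) (u : LaurentSeries (kA A)) : Prop :=
  ∃ a b : LaurentSeries A, IsI M A a ∧ IsI M A b ∧ rd A b ≠ 0 ∧ f * io A b = io A a ∧
    u * rd A b = rd A a

variable {M A}

/-- cross-multiply, `io` is injective. -/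
theorem RedRel.unique {f : LaurentSeries Qb} {u u' : LaurentSeries (kA A)} (h : RedRel M A f u)
    (h' : RedRel M A f u') : u = u' := by
  obtain ⟨a, b, -, -, hb, hf, hu⟩ := h
  obtain ⟨a', b', -, -, hb', hf', hu'⟩ := h'
  have h1 : io A (a * b') = io A (a' * b) := by
    rw [map_mul, map_mul, ← hf, ← hf']
    ring
  have h2 : rd A a * rd A b' = rd A a' * rd A b := by
    rw [← map_mul, ← map_mul, io_injective h1]
  have h3 : u * (rd A b * rd A b') = u' * (rd A b * rd A b') := by
    calc u * (rd A b * rd A b') = (u * rd A b) * rd A b' := by ring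
      _ = rd A a * rd A b' := by rw [hu]
      _ = rd A a' * rd A b := h2
      _ = (u' * rd A b') * rd A b := by rw [hu']
      _ = u' * (rd A b * rd A b') := by ring
  exact mul_right_cancel₀ (mul_ne_zero hb hb') h3

theorem RedRel.zero : RedRel M A 0 0 := by
  exact ⟨0, 1, IsI.zero, IsI.one, by rw [map_one]; exact one_ne_zero, by rw [zero_mul, map_zero],
    by rw [zero_mul, map_zero]⟩

theorem RedRel.one : RedRel M A 1 1 := by
  exact ⟨1, 1, IsI.one, IsI.one, by rw [map_one]; exact one_ne_zero, by rw [one_mul],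
    by rw [one_mul]⟩

theorem RedRel.add {f f' : LaurentSeries Qb} {u u' : LaurentSeries (kA A)} (h : RedRel M A f u)
    (h' : RedRel M A f' u') : RedRel M A (f + f') (u + u') := by
  obtain ⟨a, b, ha, hbI, hb, hf, hu⟩ := h
  obtain ⟨a', b', ha', hbI', hb', hf', hu'⟩ := h'
  refine ⟨a * b' + a' * b, b * b', (ha.mul hbI').add (ha'.mul hbI), hbI.mul hbI', ?_, ?_, ?_⟩
  · rw [map_mul]
    exact mul_ne_zero hb hb'
  · rw [map_mul, map_add, map_mul, map_mul, ← hf, ← hf']
    ring
  · rw [map_mul, map_add, map_mul, map_mul, ← hu, ← hu']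
    ring

theorem RedRel.neg {f : LaurentSeries Qb} {u : LaurentSeries (kA A)} (h : RedRel M A f u) :
    RedRel M A (-f) (-u) := by
  obtain ⟨a, b, ha, hbI, hb, hf, hu⟩ := h
  exact ⟨-a, b, ha.neg, hbI, hb, by rw [map_neg, ← hf, neg_mul], by rw [map_neg, ← hu, neg_mul]⟩

theorem RedRel.mul {f f' : LaurentSeries Qb} {u u' : LaurentSeries (kA A)} (h : RedRel M A f u)
    (h' : RedRel M A f' u') : RedRel M A (f * f') (u * u') := by
  obtain ⟨a, b, ha, hbI, hb, hf, hu⟩ := h
  obtain ⟨a', b', ha', hbI', hb', hf', hu'⟩ := h'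
  refine ⟨a * a', b * b', ha.mul ha', hbI.mul hbI', ?_, ?_, ?_⟩
  · rw [map_mul]
    exact mul_ne_zero hb hb'
  · rw [map_mul, map_mul, ← hf, ← hf']
    ring
  · rw [map_mul, map_mul, ← hu, ← hu']
    ring

theorem RedRel.inv {f : LaurentSeries Qb} {u : LaurentSeries (kA A)} (h : RedRel M A f u)
    (hu : u ≠ 0) : RedRel M A f⁻¹ u⁻¹ := by
  obtain ⟨a, b, ha, hbI, hb, hf, hu'⟩ := h
  have hra : rd A a ≠ 0 := by
    rw [← hu']
    exact mul_ne_zero hu hb
  have hia : io A a ≠ 0 := by
    intro h0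
    have : a = 0 := io_injective (by rw [h0, map_zero])
    exact hra (by rw [this, map_zero])
  have hf0 : f ≠ 0 := by
    rintro rfl
    exact hia (by rw [← hf, zero_mul])
  exact ⟨b, a, hbI, ha, hra, by rw [← hf, inv_mul_cancel_left₀ hf0],
    by rw [← hu', inv_mul_cancel_left₀ hu]⟩

theorem RedRel.const (c : A) : RedRel M A (algebraMap Qb (LaurentSeries Qb) (c : Qb))
    (algebraMap (kA A) (LaurentSeries (kA A)) (IsLocalRing.residue A c)) := by
  exact ⟨HahnSeries.single 0 c, 1, IsI.const c, IsI.one, by rw [map_one]; exact one_ne_zero,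
    by rw [map_one, mul_one, io_const], by rw [map_one, mul_one, rd_const]⟩

/-- `f` lies in the function field. -/
theorem RedRel.mem {f : LaurentSeries Qb} {u : LaurentSeries (kA A)} (h : RedRel M A f u) :
    f ∈ modularFunctionFieldBar M := by
  obtain ⟨a, b, ha, hbI, hb, hf, -⟩ := h
  have hib : io A b ≠ 0 := by
    intro h0
    have : b = 0 := io_injective (by rw [h0, map_zero])
    exact hb (by rw [this, map_zero])
  have h1 : f = io A a * (io A b)⁻¹ := by
    rw [← hf, mul_inv_cancel_right₀ hib]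
  rw [h1]
  exact mul_mem ha (inv_mem hbI)

theorem RedRel.of_isI {a : LaurentSeries A} (ha : IsI M A a) : RedRel M A (io A a) (rd A a) := by
  exact ⟨a, 1, ha, IsI.one, by rw [map_one]; exact one_ne_zero, by rw [map_one, mul_one],
    by rw [map_one, mul_one]⟩

/-- a constant `c ∉ A` has no reduction (`c⁻¹ ∈ m_A`, `io a = c io b` ⇒ `io b = io (c⁻¹ a)` ⇒ `rd b = 0`). -/
theorem RedRel.const_mem {c : Qb} {u : LaurentSeries (kA A)}
    (h : RedRel M A (algebraMap Qb (LaurentSeries Qb) c) u) : c ∈ A := by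
  by_contra hc
  obtain ⟨a, b, -, -, hb, hf, -⟩ := h
  have hc0 : c ≠ 0 := by
    rintro rfl
    exact hc (zero_mem A)
  have hcm : c⁻¹ ∈ A := (A.mem_or_inv_mem c).resolve_left hc
  have hres : IsLocalRing.residue A ⟨c⁻¹, hcm⟩ = 0 := by
    rw [IsLocalRing.residue_eq_zero_iff, IsLocalRing.mem_maximalIdeal, mem_nonunits_iff]
    intro hu
    obtain ⟨v, hv⟩ := hu
    have h1 : c⁻¹ * ((v⁻¹ : Aˣ) : A) = 1 := by
      have h2 : ((v : A) : Qb) = c⁻¹ := by rw [hv]
      rw [← h2]
      exact_mod_cast congrArg (Subtype.val) v.mul_inv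
    have h3 : (((v⁻¹ : Aˣ) : A) : Qb) = c := by
      have := eq_inv_of_mul_eq_one_right h1
      rw [inv_inv] at this
      exact this
    exact hc (h3 ▸ Subtype.property _)
  have h4 : io A b = io A (HahnSeries.single 0 (⟨c⁻¹, hcm⟩ : A) * a) := by
    rw [map_mul, io_const, ← hf, ← mul_assoc, ← map_mul]
    rw [show ((⟨c⁻¹, hcm⟩ : A) : Qb) = c⁻¹ from rfl, inv_mul_cancel₀ hc0, map_one, one_mul]
  apply hb
  rw [io_injective h4, map_mul, rd_const, hres, map_zero, zero_mul]

/-- `ES.exists_integral_fraction`. -/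
theorem exists_redRel_scale [NeZero M] (f : FF M) (hf : f ≠ 0) :
    ∃ (c : Qb) (u : LaurentSeries (kA A)), c ≠ 0 ∧ u ≠ 0 ∧
      RedRel M A (algebraMap Qb (LaurentSeries Qb) c * (f : LaurentSeries Qb)) u := by
  obtain ⟨c, a, b, hc, ha, hbI, hra, hrb, h⟩ := Fermat.Agent.ES.exists_integral_fraction M A f hf
  refine ⟨c⁻¹, rd A a * (rd A b)⁻¹, inv_ne_zero hc, mul_ne_zero hra (inv_ne_zero hrb),
    a, b, ha, hbI, hrb, ?_, ?_⟩
  · rw [mul_assoc, h, ← mul_assoc, ← map_mul, inv_mul_cancel₀ hc, map_one, one_mul]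
  · rw [inv_mul_cancel_right₀ hrb]

/-- from `exists_redRel_scale`: `c f` reduces to `u ≠ 0`; if `c⁻¹ ∈ A` then `f = c⁻¹ (c f)`, otherwise `c ∈ A` and `f⁻¹ = c (c f)⁻¹`. -/
theorem exists_redRel_or_inv [NeZero M] (f : FF M) :
    (∃ u, RedRel M A (f : LaurentSeries Qb) u) ∨ ∃ u, RedRel M A ((f⁻¹ : FF M) : LaurentSeries Qb) u := by
  by_cases hf : f = 0
  · left
    rw [hf]
    exact ⟨0, RedRel.zero⟩
  have hf' : (f : LaurentSeries Qb) ≠ 0 := fun h => hf (Subtype.ext h)
  obtain ⟨c, u, hc, hu, h⟩ := exists_redRel_scale (A := A) f hf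
  have hcL : algebraMap Qb (LaurentSeries Qb) c ≠ 0 := (map_ne_zero _).2 hc
  rcases A.mem_or_inv_mem c with hcA | hcA
  · right
    have h1 := (RedRel.const (M := M) (⟨c, hcA⟩ : A)).mul (h.inv hu)
    rw [show ((⟨c, hcA⟩ : A) : Qb) = c from rfl, mul_inv, mul_inv_cancel_left₀ hcL] at h1
    exact ⟨_, h1⟩
  · left
    have h1 := (RedRel.const (M := M) (⟨c⁻¹, hcA⟩ : A)).mul h
    rw [show ((⟨c⁻¹, hcA⟩ : A) : Qb) = c⁻¹ from rfl, map_inv₀, inv_mul_cancel_left₀ hcL] at h1
    exact ⟨_, h1⟩

variable (M A)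

/-- The Gauss valuation ring of `FF M`. -/
def gaussO [NeZero M] : ValuationSubring (FF M) where
  carrier := {f | ∃ u, RedRel M A (f : LaurentSeries Qb) u}
  mul_mem' := by
    rintro f g ⟨u, hu⟩ ⟨v, hv⟩
    exact ⟨u * v, hu.mul hv⟩
  one_mem' := ⟨1, RedRel.one⟩
  add_mem' := by
    rintro f g ⟨u, hu⟩ ⟨v, hv⟩
    exact ⟨u + v, hu.add hv⟩
  zero_mem' := ⟨0, RedRel.zero⟩
  neg_mem' := by
    rintro f ⟨u, hu⟩
    exact ⟨-u, hu.neg⟩
  mem_or_inv_mem' := exists_redRel_or_inv

/-- The residue field of the Gauss valuation, inside `k((q))`. -/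
def resF : IntermediateField (kA A) (LaurentSeries (kA A)) where
  carrier := {u | ∃ f, RedRel M A f u}
  mul_mem' := by
    rintro u v ⟨f, hf⟩ ⟨g, hg⟩
    exact ⟨f * g, hf.mul hg⟩
  add_mem' := by
    rintro u v ⟨f, hf⟩ ⟨g, hg⟩
    exact ⟨f + g, hf.add hg⟩
  algebraMap_mem' := by
    intro c
    obtain ⟨c, rfl⟩ := IsLocalRing.residue_surjective c
    exact ⟨_, RedRel.const c⟩
  inv_mem' := by
    rintro u ⟨f, hf⟩
    by_cases hu : u = 0
    · rw [hu, inv_zero]
      exact ⟨0, RedRel.zero⟩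
    · exact ⟨f⁻¹, hf.inv hu⟩

set_option synthInstance.maxHeartbeats 1000000 in
instance instFieldResF : Field (resF M A) := inferInstance

set_option synthInstance.maxHeartbeats 1000000 in
instance instAlgebraResF : Algebra (kA A) (resF M A) := inferInstance

set_option synthInstance.maxHeartbeats 1000000 in
instance instAlgebraResFLaurent : Algebra (resF M A) (LaurentSeries (kA A)) := inferInstance


variable {M A}

theorem mem_gaussO [NeZero M] {f : FF M} :
    f ∈ gaussO M A ↔ ∃ u, RedRel M A (f : LaurentSeries Qb) u := Iff.rfl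

theorem mem_resF {u : LaurentSeries (kA A)} : u ∈ resF M A ↔ ∃ f, RedRel M A f u := Iff.rfl

variable (M A)

/-- The reduction map. -/
def gaussRed [NeZero M] : gaussO M A →+* resF M A where
  toFun f := ⟨f.2.choose, ⟨_, f.2.choose_spec⟩⟩
  map_one' := Subtype.ext ((Subtype.prop (1 : gaussO M A)).choose_spec.unique RedRel.one)
  map_mul' f g := Subtype.ext ((f * g).2.choose_spec.unique (f.2.choose_spec.mul g.2.choose_spec))
  map_zero' := Subtype.ext ((Subtype.prop (0 : gaussO M A)).choose_spec.unique RedRel.zero)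
  map_add' f g := Subtype.ext ((f + g).2.choose_spec.unique (f.2.choose_spec.add g.2.choose_spec))

variable {M A}

theorem redRel_gaussRed [NeZero M] (f : gaussO M A) :
    RedRel M A ((f : FF M) : LaurentSeries Qb) (gaussRed M A f : LaurentSeries (kA A)) :=
  f.2.choose_spec

variable (M A)

/-- **The valued function field `(FF M, Gauss valuation)`.** -/
def gaussVFF [NeZero M] : Red.VFF A (IsLocalRing.residue A) (FF M) (resF M A) where
  O := gaussO M A
  red := gaussRed M A
  π_surjective := IsLocalRing.residue_surjective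
  red_surjective := by
    rintro ⟨u, f, hf⟩
    exact ⟨⟨⟨f, hf.mem⟩, u, hf⟩, Subtype.ext ((redRel_gaussRed _).unique hf)⟩
  algebraMap_mem_iff := by
    intro a
    constructor
    · rintro ⟨u, hu⟩
      exact RedRel.const_mem hu
    · intro ha
      exact ⟨_, RedRel.const ⟨a, ha⟩⟩
  red_algebraMap := by
    intro a h
    exact Subtype.ext ((redRel_gaussRed _).unique (RedRel.const a))
  exists_scale := by
    intro f hf
    obtain ⟨c, u, hc, hu, h⟩ := exists_redRel_scale (A := A) f hf
    refine ⟨c, hc, ⟨u, h⟩, fun h0 => hu ?_⟩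
    have := (redRel_gaussRed (⟨algebraMap Qb (FF M) c * f, ⟨u, h⟩⟩ : gaussO M A)).unique h
    rw [← this, h0]
    rfl

variable {M A}

/-- **Dictionary.** -/
theorem red_iff [NeZero M] {f : FF M} {u : resF M A} :
    (gaussVFF M A).Red f u ↔ RedRel M A (f : LaurentSeries Qb) (u : LaurentSeries (kA A)) := by
  constructor
  · rintro ⟨h, rfl⟩
    exact redRel_gaussRed ⟨f, h⟩
  · intro h
    exact ⟨⟨_, h⟩, Subtype.ext ((redRel_gaussRed _).unique h)⟩

end

end Fermat.Agent.S37.Mod
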