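import Fermat.Agent.S37.Mod.Normal
import Fermat.Agent.S37.Cong
import Fermat.Agent.S37.Red.Conv
import Fermat.Agent.Crux.Main

/-!
# S37 / Mod : the final export of the reduction side

`isG_of_divisible` : if `W ∈ FF N` can be written, for every `k`, as `W = W_k G_k` with `p ^ k ∣ div W_k` and `G_k ∈ 𝒢`, then `W ∈ 𝒢`
(`𝒢 = IsG N A` = constants times functions reducing to `1`).
-/

set_option autoImplicit false

open AlgebraicCurve ModularCurve

namespace Fermat.Agent.S37.Mod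

open Fermat.Agent.ES (Qb FF)
open Fermat.Agent.S26 (FF1)

noncomputable section

variable {A : ValuationSubring Qb}

/-- `S37.IsG` in terms of `RedRel`. -/
theorem isG_iff_redRel {N : ℕ} {G : FF N} : IsG N A G ↔
    ∃ c : Qb, c ≠ 0 ∧ RedRel N A (algebraMap Qb (LaurentSeries Qb) c * (G : LaurentSeries Qb)) 1 := by
  constructor
  · rintro ⟨c, a, b, hc, ha, hb, hab, hb0, h1⟩
    exact ⟨c, hc, a, b, ha, hb, hb0, h1, by rw [one_mul]; exact hab.symm⟩
  · rintro ⟨c, hc, a, b, ha, hb, hb0, h1, h2⟩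
    exact ⟨c, a, b, hc, ha, hb, by rw [one_mul] at h2; exact h2.symm, hb0, h1⟩

theorem IsI.mono {N M : ℕ} [NeZero N] [NeZero M] (h : N ∣ M) {a : LaurentSeries A}
    (ha : IsI N A a) : IsI M A a :=
  Fermat.Agent.Crux.bar_le h ha

theorem RedRel.mono {N M : ℕ} [NeZero N] [NeZero M] (h : N ∣ M) {f : LaurentSeries Qb}
    {u : LaurentSeries (kA A)} (hf : RedRel N A f u) : RedRel M A f u := by
  obtain ⟨a, b, ha, hb, h1, h2, h3⟩ := hf
  exact ⟨a, b, ha.mono h, hb.mono h, h1, h2, h3⟩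

/-- Return to level `N`.
Proof: `exists_redRel_scale` at level `N`: `RedRel N A (c' W) u`, `u ≠ 0`; at level `M` (`RedRel.mono`) divide: `RedRel M A (c'/c) u` (`RedRel.mul`, `RedRel.inv`), so
`e = c'/c ∈ A` (`RedRel.const_mem`) and `u = residue e` (`RedRel.unique`, `RedRel.const`), `e` is a unit of `A` as `u ≠ 0`; multiply `RedRel N A (c' W) u` by `RedRel.const e⁻¹`. -/
theorem isG_of_redRel_level {N M : ℕ} [NeZero N] [NeZero M] (h : N ∣ M) (W : FF N) (hW : W ≠ 0)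
    {c : Qb} (hc : c ≠ 0)
    (hr : RedRel M A (algebraMap Qb (LaurentSeries Qb) c * (W : LaurentSeries Qb)) 1) :
    IsG N A W := by
  obtain ⟨c', u, hc', hu, h1⟩ := exists_redRel_scale (A := A) W hW
  have hWL : (W : LaurentSeries Qb) ≠ 0 := by
    intro h0
    exact hW (Subtype.ext h0)
  have hcL : algebraMap Qb (LaurentSeries Qb) c ≠ 0 := by
    rw [Ne, map_eq_zero]; exact hc
  have h2 : RedRel M A (algebraMap Qb (LaurentSeries Qb) (c' / c)) u := by
    have h3 := (h1.mono h).mul (hr.inv one_ne_zero)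
    have e1 : algebraMap Qb (LaurentSeries Qb) c' * (W : LaurentSeries Qb) *
        (algebraMap Qb (LaurentSeries Qb) c * (W : LaurentSeries Qb))⁻¹ =
        algebraMap Qb (LaurentSeries Qb) (c' / c) := by
      rw [map_div₀]
      field_simp
    rw [e1, inv_one, mul_one] at h3
    exact h3
  have he : c' / c ∈ A := h2.const_mem
  have hue : u = algebraMap (kA A) (LaurentSeries (kA A)) (IsLocalRing.residue A ⟨c' / c, he⟩) :=
    h2.unique (RedRel.const (M := M) (⟨c' / c, he⟩ : A))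
  have hres : IsLocalRing.residue A ⟨c' / c, he⟩ ≠ 0 := by
    intro h0
    exact hu (by rw [hue, h0, map_zero])
  have hunit : IsUnit (⟨c' / c, he⟩ : A) := by
    by_contra hn
    exact hres ((IsLocalRing.residue_eq_zero_iff _).2 ((IsLocalRing.mem_maximalIdeal _).2 hn))
  obtain ⟨v, hv⟩ := hunit
  have hvv : (((v⁻¹ : Aˣ) : A) : Qb) * (c' / c) = 1 := by
    have h4 : ((v⁻¹ : Aˣ) : A) * (v : A) = 1 := v.inv_mul
    rw [hv] at h4
    exact congrArg Subtype.val h4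
  have hrr : IsLocalRing.residue A ((v⁻¹ : Aˣ) : A) * IsLocalRing.residue A ⟨c' / c, he⟩ = 1 := by
    rw [← map_mul, ← hv, v.inv_mul, map_one]
  have h5 := (RedRel.const (M := N) ((v⁻¹ : Aˣ) : A)).mul h1
  have e2 : algebraMap Qb (LaurentSeries Qb) (((v⁻¹ : Aˣ) : A) : Qb) *
      (algebraMap Qb (LaurentSeries Qb) c' * (W : LaurentSeries Qb)) =
      algebraMap Qb (LaurentSeries Qb) c * (W : LaurentSeries Qb) := by
    rw [← mul_assoc, ← map_mul]
    congr 2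
    have h6 : (((v⁻¹ : Aˣ) : A) : Qb) * c' = (((v⁻¹ : Aˣ) : A) : Qb) * (c' / c) * c := by
      field_simp
    rw [h6, hvv, one_mul]
  have e3 : algebraMap (kA A) (LaurentSeries (kA A)) (IsLocalRing.residue A ((v⁻¹ : Aˣ) : A)) * u
      = 1 := by
    rw [hue, ← map_mul, hrr, map_one]
  rw [e2, e3] at h5
  exact isG_iff_redRel.2 ⟨c, hc, h5⟩

theorem MainB_red_one_iff {M : ℕ} [NeZero M] {G : FF M} {c : Qb} :
    (gaussVFF M A).Red (algebraMap Qb (FF M) c * G) 1 ↔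
      RedRel M A (algebraMap Qb (LaurentSeries Qb) c * (G : LaurentSeries Qb)) 1 := by
  rw [red_iff]
  rfl

theorem MainB_isG_iff {M : ℕ} [NeZero M] {G : FF M} : IsG M A G ↔
    ∃ c : Qb, c ≠ 0 ∧ (gaussVFF M A).Red (algebraMap Qb (FF M) c * G) 1 := by
  rw [isG_iff_redRel]
  simp only [MainB_red_one_iff]

/-- `Red.const_of_divisible` for `V = gaussVFF M A`, `y = xQ hx`, `hx` from `GM.exists_goodCoord M ℓ hℓ hM hadm`; `isChart_goodCoord`, `isChart_goodCoord_inv`; dictionary `red_iff`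
(`((algebraMap Qb (FF M) c * G : FF M) : LaurentSeries Qb) = algebraMap Qb _ c * G` is `rfl`, `((1 : resF M A) : LaurentSeries _) = 1` is `rfl`). -/
theorem isG_of_divisible_admissible (M ℓ : ℕ) [NeZero M] (hℓ : ℓ.Prime) (hM : ¬ ℓ ∣ M)
    (hadm : Fermat.Agent.Crux.Admissible ℓ M) (hA : A.LiesOverPrime ℓ) (p : ℕ) (hp : 2 ≤ p)
    (W : FF M) (hW : W ≠ 0)
    (H : ∀ k : ℕ, ∃ W' G : FF M, W' ≠ 0 ∧ W = W' * G ∧
      (∀ P : Place Qb (FF M), ((p ^ k : ℕ) : ℤ) ∣ P.ord W') ∧ IsG M A G) : IsG M A W := by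
  obtain ⟨xh, β, n, hx⟩ := Fermat.Agent.Crux.GM.exists_goodCoord M ℓ hℓ hM hadm
  rw [MainB_isG_iff]
  have H' : ∀ n : ℕ, ∃ W' G : FF M, W' ≠ 0 ∧ W = W' * G ∧
      (∀ v : Place Qb (FF M), (p ^ n : ℤ) ∣ v.ord W') ∧
      ∃ c : Qb, c ≠ 0 ∧ (gaussVFF M A).Red (algebraMap Qb (FF M) c * G) 1 := by
    intro k
    obtain ⟨W', G, hW', hWG, hdiv, hG⟩ := H k
    refine ⟨W', G, hW', hWG, fun v => ?_, MainB_isG_iff.1 hG⟩
    have h := hdiv v
    rwa [Nat.cast_pow] at h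
  exact Red.const_of_divisible (gaussVFF M A) (isChart_goodCoord hℓ hx hA)
    (isChart_goodCoord_inv hℓ hx hA) hW hp H'

/-- `M = N`, `2 N` (`ℓ = 3`, `N` odd) or `3 N` (`ℓ = 2`, `3 ∤ N`), as in `Crux.crux_of_core`. -/
theorem exists_admissible (N ℓ : ℕ) [NeZero N] (hℓ : ℓ.Prime) (hN : ¬ ℓ ∣ N) :
    ∃ M : ℕ, M ≠ 0 ∧ N ∣ M ∧ ¬ ℓ ∣ M ∧ Fermat.Agent.Crux.Admissible ℓ M := by
  by_cases hadm : Fermat.Agent.Crux.Admissible ℓ N
  · exact ⟨N, NeZero.ne N, dvd_rfl, hN, hadm⟩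
  · unfold Fermat.Agent.Crux.Admissible at hadm
    rw [not_and_or] at hadm
    rcases hadm with h | h
    · -- `ℓ = 3`, `N` odd
      push Not at h
      obtain ⟨rfl, -⟩ := h
      exact ⟨2 * N, mul_ne_zero two_ne_zero (NeZero.ne N), dvd_mul_left N 2,
        fun h => hN ((Nat.Coprime.dvd_mul_left (by norm_num : Nat.Coprime 3 2)).mp h),
        fun _ => dvd_mul_right 2 N, fun h => by omega⟩
    · -- `ℓ = 2`, `3 ∤ N`
      push Not at h
      obtain ⟨rfl, -⟩ := h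
      exact ⟨3 * N, mul_ne_zero three_ne_zero (NeZero.ne N), dvd_mul_left N 3,
        fun h => hN ((Nat.Coprime.dvd_mul_left (by norm_num : Nat.Coprime 2 3)).mp h),
        fun h => by omega, fun _ => dvd_mul_right 3 N⟩

/-- orders at level `M` are multiples of orders at level `N` (`Place.ord_restrictAlong`, exactly as in `Crux.crux_descent`). -/
theorem dvd_ord_inclusion {N M : ℕ} [NeZero N] [NeZero M] (h : N ∣ M) (f : FF N) (m : ℤ)
    (hf : ∀ P : Place Qb (FF N), m ∣ P.ord f) (P : Place Qb (FF M)) :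
    m ∣ P.ord (IntermediateField.inclusion (Fermat.Agent.Crux.bar_le h) f) := by
  have hle := Fermat.Agent.Crux.bar_le h
  have hn : (modularFunctionFieldBar N).relfinrank (modularFunctionFieldBar M) ≠ 0 := by
    intro h0
    have := Fermat.Agent.Crux.relfinrank_bar h
    rw [h0, mul_zero] at this
    exact Fermat.Agent.Crux.dedekindPsi_ne_zero M this.symm
  have hint := Fermat.Agent.Crux.isIntegral_inclusion _ _ hle hn
  rw [Place.ord_restrictAlong (IntermediateField.inclusion hle) hint P f]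
  exact Dvd.dvd.mul_left (hf _) _

/-- **Final export.** -/
theorem isG_of_divisible (N ℓ : ℕ) [NeZero N] (hℓ : ℓ.Prime) (hN : ¬ ℓ ∣ N)
    (hA : A.LiesOverPrime ℓ) (p : ℕ) (hp : 2 ≤ p) (W : FF N) (hW : W ≠ 0)
    (H : ∀ k : ℕ, ∃ W' G : FF N, W' ≠ 0 ∧ W = W' * G ∧
      (∀ P : Place Qb (FF N), ((p ^ k : ℕ) : ℤ) ∣ P.ord W') ∧ IsG N A G) : IsG N A W := by
  obtain ⟨M, hM0, hNM, hM, hadm⟩ := exists_admissible N ℓ hℓ hN
  have : NeZero M := ⟨hM0⟩
  set incl := IntermediateField.inclusion (Fermat.Agent.Crux.bar_le hNM) with hincl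
  have hW' : incl W ≠ 0 := by
    rw [Ne, map_eq_zero]; exact hW
  obtain ⟨c, hc, hr⟩ := isG_iff_redRel.1 (isG_of_divisible_admissible M ℓ hℓ hM hadm hA p hp
    (incl W) hW' (by
    intro k
    obtain ⟨W', G, hW'0, hWG, hdiv, hG⟩ := H k
    obtain ⟨c, hc, hG⟩ := isG_iff_redRel.1 hG
    refine ⟨incl W', incl G, by rw [Ne, map_eq_zero]; exact hW'0, by rw [hWG, map_mul],
      dvd_ord_inclusion hNM W' _ hdiv, isG_iff_redRel.2 ⟨c, hc, hG.mono hNM⟩⟩))
  exact isG_of_redRel_level hNM W hW hc hr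

end

end Fermat.Agent.S37.Mod
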