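import Fermat.Agent.Crux.GM.NormalK
import Fermat.Agent.Crux.Descent
import Fermat.Agent.S37.Mod.VFF

/-!
# S37 / Mod : normality of the special fibre of the charts `x`, `x⁻¹` over `(ℚ̄, A)` (series level)

Descent `(ℚ̄, A) → (K₀, A₀ = A ∩ K₀)` of `Crux.GM.normalK_of_goodCoord`.
-/

set_option autoImplicit false

open AlgebraicCurve ModularCurve Polynomial

namespace Fermat.Agent.S37.Mod

open Fermat.Agent.ES (Qb FF)
open Fermat.Agent.S28 (evAt)
open Fermat.Agent.Crux (A0)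
open Fermat.Agent.Crux.GM (GoodCoord castS)
open Fermat.Agent.Crux.GM.Normal (homog map_homog eval₂_mul_pow)

noncomputable section

/-- base change of `homog`. -/
theorem coeffMap_homog {R S : Type*} [CommRing R] [CommRing S] [Nontrivial S] (f : R →+* S)
    (t : LaurentSeries R) (P : R[X][X]) (hP : P.Monic) (g h : LaurentSeries R) :
    coeffMap f (homog (evAt t) P g h)
      = homog (evAt (coeffMap f t)) (P.map (mapRingHom f)) (coeffMap f g) (coeffMap f h) := by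
  rw [map_homog, Fermat.Agent.S28.Build.coeffMap_comp_evAt, homog, homog, hP.natDegree_map]
  refine Finset.sum_congr rfl fun i _ => ?_
  rw [coeff_map, RingHom.comp_apply]

section Incl

variable (K₀ : Type*) [Field K₀] [Algebra K₀ Qb] (A : ValuationSubring Qb)

/-- `A₀ = A ∩ K₀ → A`. -/
def incl : A0 K₀ A →+* A where
  toFun a := ⟨algebraMap K₀ Qb (a : K₀), a.2⟩
  map_one' := Subtype.ext (by simp)
  map_mul' a b := Subtype.ext (by simp)
  map_zero' := Subtype.ext (by simp)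
  map_add' a b := Subtype.ext (by simp)

theorem coe_incl (a : A0 K₀ A) : ((incl K₀ A a : A) : Qb) = algebraMap K₀ Qb (a : K₀) := rfl

theorem subtype_comp_incl :
    A.subtype.comp (incl K₀ A) = (algebraMap K₀ Qb).comp (algebraMap (A0 K₀ A) K₀) := rfl

theorem io_incl (z : LaurentSeries (A0 K₀ A)) :
    io A (coeffMap (incl K₀ A) z)
      = coeffMap (algebraMap K₀ Qb) (coeffMap (algebraMap (A0 K₀ A) K₀) z) := by
  rw [coeffMap_coeffMap, coeffMap_coeffMap, subtype_comp_incl]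

theorem residue_incl_eq_zero_iff (a : A0 K₀ A) :
    IsLocalRing.residue A (incl K₀ A a) = 0 ↔ IsLocalRing.residue (A0 K₀ A) a = 0 :=
  (Fermat.Agent.Crux.residue_comap_eq_zero_iff (algebraMap K₀ Qb) A a (incl K₀ A a) rfl).symm

theorem rd_incl_eq_zero_iff (z : LaurentSeries (A0 K₀ A)) :
    rd A (coeffMap (incl K₀ A) z) = 0 ↔ coeffMap (IsLocalRing.residue (A0 K₀ A)) z = 0 := by
  constructor
  · intro h
    ext n
    have := congrArg (fun s => s.coeff n) h
    simp only [coeffMap_coeff, HahnSeries.coeff_zero] at this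
    rw [coeffMap_coeff, HahnSeries.coeff_zero]
    exact (residue_incl_eq_zero_iff K₀ A _).1 this
  · intro h
    ext n
    have := congrArg (fun s => s.coeff n) h
    simp only [coeffMap_coeff, HahnSeries.coeff_zero] at this
    rw [coeffMap_coeff, coeffMap_coeff, HahnSeries.coeff_zero]
    exact (residue_incl_eq_zero_iff K₀ A _).2 this

theorem rd_incl_eq_iff (z w : LaurentSeries (A0 K₀ A)) :
    rd A (coeffMap (incl K₀ A) z) = rd A (coeffMap (incl K₀ A) w) ↔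
      coeffMap (IsLocalRing.residue (A0 K₀ A)) z = coeffMap (IsLocalRing.residue (A0 K₀ A)) w := by
  rw [← sub_eq_zero, ← map_sub, ← map_sub, rd_incl_eq_zero_iff, map_sub, sub_eq_zero]

/-- a series over `K₀` whose base change is `A`-integral. -/
theorem exists_incl_series (u : LaurentSeries K₀) (y : LaurentSeries A)
    (h : coeffMap (algebraMap K₀ Qb) u = io A y) :
    ∃ z : LaurentSeries (A0 K₀ A), coeffMap (algebraMap (A0 K₀ A) K₀) z = u ∧
      coeffMap (incl K₀ A) z = y := by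
  obtain ⟨z, hz, hz'⟩ := Fermat.Agent.Crux.exists_A0_series K₀ A u y h
  refine ⟨z, hz, ?_⟩
  ext n
  rw [coeffMap_coeff]
  exact hz' n

/-- lifting monic polynomials. -/
theorem exists_incl_poly (P : A[X][X]) (hP : P.Monic)
    (hc : ∀ i j, (((P.coeff i).coeff j : A) : Qb) ∈ Set.range (algebraMap K₀ Qb)) :
    ∃ P0 : (A0 K₀ A)[X][X], P0.Monic ∧ P0.map (mapRingHom (incl K₀ A)) = P := by
  have h1 : P ∈ lifts (mapRingHom (incl K₀ A)) := by
    rw [lifts_iff_coeff_lifts]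
    intro i
    have h2 : P.coeff i ∈ lifts (incl K₀ A) := by
      rw [lifts_iff_coeff_lifts]
      intro j
      obtain ⟨c, hc⟩ := hc i j
      refine ⟨⟨c, ?_⟩, Subtype.ext hc⟩
      show algebraMap K₀ Qb c ∈ A
      rw [hc]
      exact Subtype.property _
    obtain ⟨q, hq⟩ := (mem_lifts _).1 h2
    exact ⟨q, hq⟩
  obtain ⟨P0, h0, -, hm⟩ := lifts_and_natDegree_eq_and_monic h1 hP
  exact ⟨P0, hm, h0⟩

end Incl

/-- the step over a fixed number field `K₀`. -/
theorem normal_step (M : ℕ) [NeZero M] (ℓ : ℕ) (hℓ : ℓ.Prime) (xh : LaurentSeries ℤ)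
    (β : ℤ) (n : ℕ) (hx : GoodCoord M ℓ xh β n) (A : ValuationSubring Qb)
    (hA : A.LiesOverPrime ℓ) (th : LaurentSeries ℤ) (hth : th = xh ∨ xh * th = 1)
    (K₀ : Type) [Field K₀] [NumberField K₀] [Algebra K₀ Qb]
    (g h : LaurentSeries (A0 K₀ A))
    (hg : coeffMap (algebraMap (A0 K₀ A) K₀) g ∈ modularFunctionFieldFullC K₀ M)
    (hh : coeffMap (algebraMap (A0 K₀ A) K₀) h ∈ modularFunctionFieldFullC K₀ M)
    (hne : rd A (coeffMap (incl K₀ A) h) ≠ 0)
    (P : (A0 K₀ A)[X][X]) (hP : P.Monic)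
    (hPz : rd A (homog (evAt (castS A th)) (P.map (mapRingHom (incl K₀ A)))
      (coeffMap (incl K₀ A) g) (coeffMap (incl K₀ A) h)) = 0) :
    ∃ g' h' : LaurentSeries A, IsI M A g' ∧ IsI M A h' ∧ rd A h' ≠ 0 ∧
      rd A (g' * coeffMap (incl K₀ A) h) = rd A (coeffMap (incl K₀ A) g * h') ∧
      ∃ Q : A[X][X], Q.Monic ∧ homog (evAt (castS A th)) Q g' h' = 0 := by
  have hdvr : IsDiscreteValuationRing (A0 K₀ A) :=
    Fermat.Agent.Crux.isDiscreteValuationRing_of_numberField _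
      (Fermat.Agent.Crux.A0_ne_top K₀ A hℓ hA)
  have hperf : PerfectField (IsLocalRing.ResidueField (A0 K₀ A)) :=
    Fermat.Agent.Crux.perfectField_residueField _ ℓ hℓ
      (Fermat.Agent.Crux.residue_A0_natCast K₀ A hA)
  have hc : ∀ (Q : (A0 K₀ A)[X][X]), Q.Monic → ∀ a b : LaurentSeries (A0 K₀ A),
      coeffMap (incl K₀ A) (homog (evAt (castS (A0 K₀ A) th)) Q a b)
        = homog (evAt (castS A th)) (Q.map (mapRingHom (incl K₀ A)))
          (coeffMap (incl K₀ A) a) (coeffMap (incl K₀ A) b) := by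
    intro Q hQ a b
    rw [coeffMap_homog _ _ _ hQ, Fermat.Agent.Crux.GM.coeffMap_castS]
  obtain ⟨g', h', hg', hh', hne', hgh, Q, hQ, hQz⟩ :=
    Fermat.Agent.Crux.GM.normalK_of_goodCoord M ℓ hℓ xh β n hx
      (A := A0 K₀ A) (K := K₀) (k := IsLocalRing.ResidueField (A0 K₀ A))
      (IsLocalRing.residue (A0 K₀ A)) IsLocalRing.residue_surjective
      (Fermat.Agent.Crux.residue_A0_natCast K₀ A hA) th hth g h hg hh
      (fun h0 => hne ((rd_incl_eq_zero_iff K₀ A h).2 h0)) P hP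
      ((rd_incl_eq_zero_iff K₀ A _).1 (by rw [hc P hP]; exact hPz))
  refine ⟨coeffMap (incl K₀ A) g', coeffMap (incl K₀ A) h', ?_, ?_, ?_, ?_,
    Q.map (mapRingHom (incl K₀ A)), hQ.map _, ?_⟩
  · rw [IsI, io_incl]
    exact Fermat.Agent.Crux.coeffMap_mem_bar K₀ M hg'
  · rw [IsI, io_incl]
    exact Fermat.Agent.Crux.coeffMap_mem_bar K₀ M hh'
  · exact fun h0 => hne' ((rd_incl_eq_zero_iff K₀ A h').1 h0)
  · rw [← map_mul, ← map_mul, rd_incl_eq_iff]
    exact hgh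
  · rw [← hc Q hQ, hQz, map_zero]

/-- **Normality of the special fibre of the charts `x`, `x⁻¹` over `(ℚ̄, A)`, series level.** -/
theorem normal_series (M : ℕ) [NeZero M] (ℓ : ℕ) (hℓ : ℓ.Prime) (xh : LaurentSeries ℤ)
    (β : ℤ) (n : ℕ) (hx : GoodCoord M ℓ xh β n) (A : ValuationSubring Qb)
    (hA : A.LiesOverPrime ℓ) (th : LaurentSeries ℤ) (hth : th = xh ∨ xh * th = 1)
    (g h : LaurentSeries A) (hg : IsI M A g) (hh : IsI M A h) (hne : rd A h ≠ 0)
    (P : A[X][X]) (hP : P.Monic) (hPz : rd A (homog (evAt (castS A th)) P g h) = 0) :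
    ∃ g' h' : LaurentSeries A, IsI M A g' ∧ IsI M A h' ∧ rd A h' ≠ 0 ∧
      rd A (g' * h) = rd A (g * h') ∧
      ∃ Q : A[X][X], Q.Monic ∧ homog (evAt (castS A th)) Q g' h' = 0 := by
  classical
  obtain ⟨p₁, q₁, -, hf₁⟩ := Fermat.Agent.S24.exists_phiF_div M ⟨_, hg⟩
  obtain ⟨p₂, q₂, -, hf₂⟩ := Fermat.Agent.S24.exists_phiF_div M ⟨_, hh⟩
  set T : Finset Qb := P.support.biUnion fun i => (P.coeff i).support.image
    fun j => (((P.coeff i).coeff j : A) : Qb) with hT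
  obtain ⟨K₀, hfin, hS⟩ : ∃ K₀ : IntermediateField ℚ Qb, FiniteDimensional ℚ K₀ ∧
      ∀ c ∈ p₁.coeffs ∪ q₁.coeffs ∪ p₂.coeffs ∪ q₂.coeffs ∪ T, c ∈ K₀ :=
    ⟨IntermediateField.adjoin ℚ
      ((p₁.coeffs ∪ q₁.coeffs ∪ p₂.coeffs ∪ q₂.coeffs ∪ T : Finset Qb) : Set Qb),
      IntermediateField.finiteDimensional_adjoin fun x _ =>
        ((AlgebraicClosure.isAlgebraic ℚ).isAlgebraic x).isIntegral,
      fun c hc => IntermediateField.subset_adjoin _ _ (Finset.mem_coe.mpr hc)⟩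
  have hnf : NumberField K₀ := ⟨⟩
  have hS' : ∀ c ∈ p₁.coeffs ∪ q₁.coeffs ∪ p₂.coeffs ∪ q₂.coeffs ∪ T,
      c ∈ Set.range (algebraMap K₀ Qb) := fun c hc => ⟨⟨c, hS c hc⟩, rfl⟩
  obtain ⟨u₁, hu₁, hu₁'⟩ := Fermat.Agent.Crux.exists_model M K₀ _ p₁ q₁ hf₁
    (fun c hc => hS' c (by simp only [Finset.mem_union]; tauto))
    (fun c hc => hS' c (by simp only [Finset.mem_union]; tauto))
  obtain ⟨u₂, hu₂, hu₂'⟩ := Fermat.Agent.Crux.exists_model M K₀ _ p₂ q₂ hf₂
    (fun c hc => hS' c (by simp only [Finset.mem_union]; tauto))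
    (fun c hc => hS' c (by simp only [Finset.mem_union]; tauto))
  obtain ⟨z₁, hz₁, rfl⟩ := exists_incl_series K₀ A u₁ g hu₁'
  obtain ⟨z₂, hz₂, rfl⟩ := exists_incl_series K₀ A u₂ h hu₂'
  obtain ⟨P0, hP0, rfl⟩ := exists_incl_poly K₀ A P hP (by
    intro i j
    by_cases hi : P.coeff i = 0
    · rw [hi, coeff_zero]
      exact ⟨0, by simp⟩
    by_cases hj : (P.coeff i).coeff j = 0
    · rw [hj]
      exact ⟨0, by simp⟩
    apply hS'
    rw [Finset.mem_union]
    right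
    rw [hT, Finset.mem_biUnion]
    exact ⟨i, mem_support_iff.2 hi, Finset.mem_image.2 ⟨j, mem_support_iff.2 hj, rfl⟩⟩)
  exact normal_step M ℓ hℓ xh β n hx A hA th hth K₀ z₁ z₂ (by rw [hz₁]; exact hu₁)
    (by rw [hz₂]; exact hu₂) hne P0 hP0 hPz

end

end Fermat.Agent.S37.Mod
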